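import Mathlib
import Fermat.Agent.MUL.Lib.Minkowski.Final
import Fermat.Agent.MUL.Lib.FFL.Defs
import Fermat.Agent.MUL.R38.Ret.GalRed

section MergeWrap_Lib_HermiteMinkowski_DifferentBound -- from Lib/HermiteMinkowski/DifferentBound.lean

set_option autoImplicit false

namespace Fermat.Agent.HermiteMinkowski

open NumberField
open scoped Pointwise

variable {K : Type*} [Field K] [NumberField K]

/-- The trace of an algebraic integer is the sum of its Galois conjugates (in `𝓞 K`). -/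
theorem algebraMap_intTrace_eq_sum [IsGalois ℚ K] (u : 𝓞 K) :
    algebraMap ℤ (𝓞 K) (Algebra.intTrace ℤ (𝓞 K) u) = ∑ σ : K ≃ₐ[ℚ] K, σ • u := by
  apply FaithfulSMul.algebraMap_injective (𝓞 K) K
  rw [← IsScalarTower.algebraMap_apply ℤ (𝓞 K) K, IsScalarTower.algebraMap_apply ℤ ℚ K,
    Algebra.algebraMap_intTrace (A := ℤ) (K := ℚ) (L := K) (B := 𝓞 K), trace_eq_sum_automorphisms,
    map_sum]
  rfl

/-- An ideal of `𝓞 K` generated by a rational integer is Galois stable. -/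
theorem smul_span_natCast (σ : K ≃ₐ[ℚ] K) (c : ℕ) :
    σ • Ideal.span {(c : 𝓞 K)} = Ideal.span {(c : 𝓞 K)} := by
  rw [Ideal.pointwise_smul_def, Ideal.map_span, Set.image_singleton, map_natCast]

/-- If a maximal ideal `P` does not divide `J`, then `P ^ j` and `J` are coprime. -/
theorem isCoprime_pow_of_not_dvd {R : Type*} [CommRing R] [IsDedekindDomain R]
    (P J : Ideal R) (hP : P.IsMaximal) (h : ¬ P ∣ J) (j : ℕ) : IsCoprime (P ^ j) J := by
  apply IsCoprime.pow_left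
  rw [Ideal.isCoprime_iff_sup_eq]
  by_contra hne
  have := hP.eq_of_le hne le_sup_left
  apply h
  rw [Ideal.dvd_iff_le, this]
  exact le_sup_right

/-- Key congruence: if `(c) = P ^ j * J` with `P` maximal, and `u ∈ J`,
`1 - u ∈ P ^ j`, then `∑ σ, σ u ≡ #{σ | σ⁻¹ P = P}` modulo `P ^ j`. -/
theorem sum_smul_sub_card_mem [IsGalois ℚ K] (P J : Ideal (𝓞 K)) (hP : P.IsMaximal)
    (c j : ℕ) (hI : Ideal.span {(c : 𝓞 K)} = P ^ j * J)
    (u : 𝓞 K) (hu : u ∈ J) (hu1 : 1 - u ∈ P ^ j) :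
    ∃ d : ℕ, 0 < d ∧ d ≤ Module.finrank ℚ K ∧
      (∑ σ : K ≃ₐ[ℚ] K, σ • u) - (d : 𝓞 K) ∈ P ^ j := by
  classical
  let D : Finset (K ≃ₐ[ℚ] K) := Finset.univ.filter fun σ => σ⁻¹ • P = P
  refine ⟨D.card, ?_, ?_, ?_⟩
  · apply Finset.card_pos.mpr
    refine ⟨1, ?_⟩
    simp [D]
  · calc D.card ≤ (Finset.univ : Finset (K ≃ₐ[ℚ] K)).card := Finset.card_le_univ _
      _ = Nat.card (K ≃ₐ[ℚ] K) := by rw [Finset.card_univ, Nat.card_eq_fintype_card]
      _ = Module.finrank ℚ K := IsGalois.card_aut_eq_finrank ℚ K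
  · have hterm : ∀ σ : K ≃ₐ[ℚ] K, σ • u - (if σ ∈ D then (1 : 𝓞 K) else 0) ∈ P ^ j := by
      intro σ
      have hpow : σ⁻¹ • (P ^ j) = (σ⁻¹ • P) ^ j := smul_pow' σ⁻¹ P j
      by_cases hσ : σ ∈ D
      · rw [if_pos hσ]
        have hσP : σ⁻¹ • P = P := by simpa [D] using hσ
        have h1 : 1 - u ∈ σ⁻¹ • (P ^ j) := by rw [hpow, hσP]; exact hu1
        rw [Ideal.mem_pointwise_smul_iff_inv_smul_mem, inv_inv, smul_sub, smul_one] at h1
        have := (P ^ j).neg_mem h1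
        rwa [neg_sub] at this
      · rw [if_neg hσ, sub_zero]
        have hσP : σ⁻¹ • P ≠ P := by simpa [D] using hσ
        have hmax' : (σ⁻¹ • P).IsMaximal := by
          rw [Ideal.pointwise_smul_def]
          exact Ideal.map_isMaximal_of_equiv (MulSemiringAction.toRingEquiv _ (𝓞 K) σ⁻¹)
        have hcop : IsCoprime ((σ⁻¹ • P) ^ j) (P ^ j) := by
          apply IsCoprime.pow
          rw [Ideal.isCoprime_iff_sup_eq]
          exact Ideal.IsMaximal.coprime_of_ne hmax' hP hσP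
        have hdvd : (σ⁻¹ • P) ^ j ∣ P ^ j * J := by
          rw [← hI, ← smul_span_natCast σ⁻¹ c, hI, ← hpow]
          rw [Ideal.dvd_iff_le]
          rw [Ideal.pointwise_smul_def, Ideal.pointwise_smul_def]
          exact Ideal.map_mono Ideal.mul_le_left
        have hJle : J ≤ (σ⁻¹ • P) ^ j := Ideal.dvd_iff_le.mp (hcop.dvd_of_dvd_mul_left hdvd)
        have h1 := hJle hu
        rw [← hpow, Ideal.mem_pointwise_smul_iff_inv_smul_mem, inv_inv] at h1
        exact h1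
    have hsum := (P ^ j).sum_mem (t := Finset.univ) fun σ _ => hterm σ
    rw [Finset.sum_sub_distrib] at hsum
    have hcard : (∑ σ : K ≃ₐ[ℚ] K, if σ ∈ D then (1 : 𝓞 K) else 0) = (D.card : 𝓞 K) := by
      rw [Finset.sum_ite_mem, Finset.univ_inter, Finset.sum_const, nsmul_eq_mul, mul_one]
    rwa [hcard] at hsum

/-- In an ideal of `ℤ` containing `d` with `0 < d < q ^ m` and `q ^ m` (`q` prime), one finds
`q ^ (m - 1)`. -/
theorem prime_pow_pred_mem {R : Type*} [CommRing R] (I : Ideal R) (q : ℕ) (hq : q.Prime)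
    (m d : ℕ) (hd0 : 0 < d) (hdm : d < q ^ m) (hd : (d : R) ∈ I) (hqm : ((q ^ m : ℕ) : R) ∈ I) :
    ((q ^ (m - 1) : ℕ) : R) ∈ I := by
  have hg : ((Nat.gcd d (q ^ m) : ℕ) : R) ∈ I := by
    have h := Int.gcd_eq_gcd_ab (d : ℤ) ((q ^ m : ℕ) : ℤ)
    have h2 : ((Nat.gcd d (q ^ m) : ℕ) : R) =
        (d : R) * ((Int.gcdA d ((q ^ m : ℕ) : ℤ) : ℤ) : R) +
          ((q ^ m : ℕ) : R) * ((Int.gcdB d ((q ^ m : ℕ) : ℤ) : ℤ) : R) := by
      have h3 := congrArg (fun z : ℤ => (z : R)) h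
      simp only [Int.cast_add, Int.cast_mul, Int.cast_natCast] at h3
      rw [← h3, Int.gcd_natCast_natCast]
    rw [h2]
    exact I.add_mem (I.mul_mem_right _ hd) (I.mul_mem_right _ hqm)
  obtain ⟨a, ha, hga⟩ := (Nat.dvd_prime_pow hq).mp (Nat.gcd_dvd_right d (q ^ m))
  have ham : a ≠ m := by
    rintro rfl
    have : q ^ a ∣ d := hga ▸ Nat.gcd_dvd_left d (q ^ a)
    exact absurd (Nat.le_of_dvd hd0 this) (not_le.mpr hdm)
  have hle : a ≤ m - 1 := by omega
  obtain ⟨t, ht⟩ := pow_dvd_pow q hle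
  rw [ht, ← hga, Nat.cast_mul]
  exact I.mul_mem_right _ hg

/-- **Crude bound for the different** (Galois case, no local fields): if `P` lies over `q` and
`[K : ℚ] < q ^ m`, then every power of `P` dividing the different divides `(q ^ m)`. -/
theorem pow_dvd_span_of_pow_dvd_differentIdeal [IsGalois ℚ K] (P : Ideal (𝓞 K)) [hPp : P.IsPrime]
    (hP0 : P ≠ ⊥) (q : ℕ) (hq : q.Prime) (hqP : (q : 𝓞 K) ∈ P) (m : ℕ)
    (hm : Module.finrank ℚ K < q ^ m) (k : ℕ) (hk : P ^ k ∣ differentIdeal ℤ (𝓞 K)) :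
    P ^ k ∣ Ideal.span {((q ^ m : ℕ) : 𝓞 K)} := by
  have hPmax : P.IsMaximal := hPp.isMaximal hP0
  have hPprime : Prime P := (Ideal.prime_iff_isPrime hP0).mpr hPp
  have hI0 : Ideal.span {((q ^ m : ℕ) : 𝓞 K)} ≠ 0 := by
    rw [Ideal.zero_eq_bot, Ne, Ideal.span_singleton_eq_bot]
    exact_mod_cast (pow_pos hq.pos m).ne'
  obtain ⟨j, J, hJ, hI⟩ := WfDvdMonoid.max_power_factor hI0 hPprime.irreducible
  by_contra hcon
  have hjk : j < k := by
    by_contra hle
    push Not at hle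
    exact hcon ((pow_dvd_pow P hle).trans (hI ▸ Dvd.intro J rfl))
  -- it suffices to show that `P ^ j` does not divide the different
  suffices hnot : ¬ P ^ j ∣ differentIdeal ℤ (𝓞 K) from
    hnot ((pow_dvd_pow P hjk.le).trans hk)
  obtain ⟨a, ha, b, hb, hab⟩ := Ideal.isCoprime_iff_exists.mp
    (isCoprime_pow_of_not_dvd P J hPmax hJ j)
  have hu1 : 1 - b ∈ P ^ j := by
    have : 1 - b = a := by rw [← hab]; ring
    rw [this]; exact ha
  have hmap : P ^ j * J = Ideal.map (algebraMap ℤ (𝓞 K)) (Ideal.span {((q ^ m : ℕ) : ℤ)}) := by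
    rw [Ideal.map_span, Set.image_singleton, ← hI, map_natCast]
  refine not_dvd_differentIdeal_of_intTrace_not_mem ℤ (P ^ j) J hmap b hb ?_
  intro htr
  obtain ⟨d, hd0, hdn, hd⟩ := sum_smul_sub_card_mem P J hPmax (q ^ m) j hI b hb hu1
  have hIle : Ideal.span {((q ^ m : ℕ) : 𝓞 K)} ≤ P ^ j := by
    rw [hI]; exact Ideal.mul_le_left
  have htr' : algebraMap ℤ (𝓞 K) (Algebra.intTrace ℤ (𝓞 K) b) ∈ P ^ j := by
    apply hIle
    obtain ⟨z, hz⟩ := Ideal.mem_span_singleton'.mp htr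
    rw [← hz, map_mul, map_natCast]
    exact Ideal.mul_mem_left _ _ (Ideal.subset_span rfl)
  rw [algebraMap_intTrace_eq_sum] at htr'
  have hdmem : (d : 𝓞 K) ∈ P ^ j := by
    have := (P ^ j).sub_mem htr' hd
    rwa [sub_sub_cancel] at this
  have hqmem : ((q ^ m : ℕ) : 𝓞 K) ∈ P ^ j := hIle (Ideal.subset_span rfl)
  have hpred := prime_pow_pred_mem (P ^ j) q hq m d hd0 (lt_of_le_of_lt hdn hm) hdmem hqmem
  -- now `P ^ j ∣ (q ^ (m - 1))`, which contradicts `P ∤ J`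
  have hm1 : 1 ≤ m := by
    rcases Nat.eq_zero_or_pos m with rfl | h
    · exfalso
      have : 0 < Module.finrank ℚ K := Module.finrank_pos
      simp at hm
      omega
    · exact h
  obtain ⟨T, hT⟩ : P ^ j ∣ Ideal.span {((q ^ (m - 1) : ℕ) : 𝓞 K)} := by
    rw [Ideal.dvd_iff_le, Ideal.span_singleton_le_iff_mem]
    exact hpred
  have hsplit : Ideal.span {((q ^ m : ℕ) : 𝓞 K)} =
      Ideal.span {(q : 𝓞 K)} * Ideal.span {((q ^ (m - 1) : ℕ) : 𝓞 K)} := by
    rw [Ideal.span_singleton_mul_span_singleton]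
    congr 2
    rw [← Nat.cast_mul, ← pow_succ']
    congr 2
    omega
  have hJeq : J = Ideal.span {(q : 𝓞 K)} * T := by
    have h1 : P ^ j * J = P ^ j * (Ideal.span {(q : 𝓞 K)} * T) := by
      rw [← hI, hsplit, hT]; ring
    exact mul_left_cancel₀ (pow_ne_zero j hPprime.ne_zero) h1
  apply hJ
  rw [hJeq]
  refine Dvd.dvd.mul_right ?_ T
  rw [Ideal.dvd_iff_le, Ideal.span_singleton_le_iff_mem]
  exact hqP

end Fermat.Agent.HermiteMinkowski
end MergeWrap_Lib_HermiteMinkowski_DifferentBound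

section MergeWrap_Lib_HermiteMinkowski_DiscrBound -- from Lib/HermiteMinkowski/DiscrBound.lean

set_option autoImplicit false

namespace Fermat.Agent.HermiteMinkowski

open NumberField

variable {K : Type*} [Field K] [NumberField K]

omit [NumberField K] in
/-- A nonzero prime of `𝓞 K` contains a rational prime. -/
theorem exists_prime_natCast_mem (P : Ideal (𝓞 K)) [hP : P.IsPrime] (hP0 : P ≠ ⊥) :
    ∃ q : ℕ, q.Prime ∧ (q : 𝓞 K) ∈ P := by
  have hne : P.under ℤ ≠ ⊥ := fun h => hP0 (Ideal.eq_bot_of_comap_eq_bot h)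
  have hprime : (P.under ℤ).IsPrime := inferInstance
  have hgen := Submodule.IsPrincipal.prime_generator_of_isPrime (P.under ℤ) hne
  set g := Submodule.IsPrincipal.generator (P.under ℤ) with hg
  refine ⟨g.natAbs, Int.prime_iff_natAbs_prime.mp hgen, ?_⟩
  have hmem : g ∈ P.under ℤ := Submodule.IsPrincipal.generator_mem _
  have hmem' : ((g.natAbs : ℤ)) ∈ P.under ℤ := by
    rcases Int.natAbs_eq g with h | h
    · rw [← h]; exact hmem
    · have : ((g.natAbs : ℤ)) = -g := by omega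
      rw [this]; exact (P.under ℤ).neg_mem hmem
  have := Ideal.mem_comap.mp hmem'
  simpa using this

/-- The different of a Galois number field of degree `≤ n` unramified outside `S` divides
`∏_{q ∈ S prime} q ^ n`. -/
theorem differentIdeal_dvd_span [IsGalois ℚ K] (S : Finset ℕ) (n : ℕ)
    (hn : Module.finrank ℚ K ≤ n)
    (hunr : ∀ q : ℕ, q.Prime → q ∉ S → ∀ (P : Ideal (𝓞 K)) (_ : P.IsPrime), (q : 𝓞 K) ∈ P →
      Algebra.IsUnramifiedAt ℤ P) :
    differentIdeal ℤ (𝓞 K) ∣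
      Ideal.span {((∏ q ∈ S.filter Nat.Prime, q ^ n : ℕ) : 𝓞 K)} := by
  rw [UniqueFactorizationMonoid.dvd_iff_emultiplicity_le
    (by rw [Ideal.zero_eq_bot]; exact differentIdeal_ne_bot)]
  intro P hPprime
  rw [emultiplicity_le_emultiplicity_iff]
  intro k hk
  have hP0 : P ≠ ⊥ := hPprime.ne_zero
  have hPp : P.IsPrime := (Ideal.prime_iff_isPrime hP0).mp hPprime
  obtain ⟨q, hq, hqP⟩ := exists_prime_natCast_mem P hP0
  by_cases hqS : q ∈ S
  · have hlt : Module.finrank ℚ K < q ^ n :=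
      lt_of_le_of_lt hn (lt_of_lt_of_le n.lt_two_pow_self
        (Nat.pow_le_pow_left hq.two_le n))
    refine (pow_dvd_span_of_pow_dvd_differentIdeal P hP0 q hq hqP n hlt k hk).trans ?_
    rw [Ideal.dvd_iff_le, Ideal.span_singleton_le_iff_mem]
    have hdvd : q ^ n ∣ ∏ q ∈ S.filter Nat.Prime, q ^ n :=
      Finset.dvd_prod_of_mem (fun q => q ^ n) (Finset.mem_filter.mpr ⟨hqS, hq⟩)
    obtain ⟨t, ht⟩ := hdvd
    rw [ht, Nat.cast_mul]
    exact Ideal.mul_mem_right _ _ (Ideal.subset_span rfl)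
  · have hur := hunr q hq hqS P hPp hqP
    have hnd : ¬ P ∣ differentIdeal ℤ (𝓞 K) := not_dvd_differentIdeal_iff.mpr hur
    rcases Nat.eq_zero_or_pos k with rfl | hkpos
    · rw [pow_zero]; exact one_dvd _
    · exact absurd ((dvd_pow_self P hkpos.ne').trans hk) hnd

/-- **Discriminant bound**: a Galois number field of degree `≤ n` unramified outside `S` has
`|d_K| ≤ (∏_{q ∈ S prime} q ^ n) ^ n`. -/
theorem natAbs_discr_le [IsGalois ℚ K] (S : Finset ℕ) (n : ℕ)
    (hn : Module.finrank ℚ K ≤ n)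
    (hunr : ∀ q : ℕ, q.Prime → q ∉ S → ∀ (P : Ideal (𝓞 K)) (_ : P.IsPrime), (q : 𝓞 K) ∈ P →
      Algebra.IsUnramifiedAt ℤ P) :
    (discr K).natAbs ≤ (∏ q ∈ S.filter Nat.Prime, q ^ n) ^ n := by
  set c : ℕ := ∏ q ∈ S.filter Nat.Prime, q ^ n with hc
  have hcpos : 0 < c := Finset.prod_pos fun q hq =>
    pow_pos (Finset.mem_filter.mp hq).2.pos n
  have hdvd := differentIdeal_dvd_span S n hn hunr
  have h1 := Ideal.absNorm_dvd_absNorm_of_le (Ideal.dvd_iff_le.mp hdvd)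
  rw [absNorm_differentIdeal K (𝓞 K), Ideal.absNorm_span_singleton] at h1
  have h2 : (Algebra.norm ℤ ((c : ℕ) : 𝓞 K)).natAbs = c ^ Module.finrank ℚ K := by
    have : ((c : ℕ) : 𝓞 K) = algebraMap ℤ (𝓞 K) (c : ℤ) := by simp
    rw [this, Algebra.norm_algebraMap, RingOfIntegers.rank, Int.natAbs_pow, Int.natAbs_natCast]
  rw [h2] at h1
  calc (discr K).natAbs ≤ c ^ Module.finrank ℚ K :=
        Nat.le_of_dvd (pow_pos hcpos _) h1
    _ ≤ c ^ n := Nat.pow_le_pow_right hcpos hn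

end Fermat.Agent.HermiteMinkowski
end MergeWrap_Lib_HermiteMinkowski_DiscrBound

section MergeWrap_Lib_HermiteMinkowski_Unramified -- from Lib/HermiteMinkowski/Unramified.lean

set_option autoImplicit false

namespace Fermat.Agent.HermiteMinkowski

open NumberField Fermat.Agent.FrobExists Fermat.Agent.Minkowski

/-- All primes of a Galois number field over the same rational prime are simultaneously
unramified. -/
theorem isUnramifiedAt_of_isUnramifiedAt {K : Type*} [Field K] [NumberField K] [IsGalois ℚ K]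
    (q : ℕ) (hq : q.Prime) (P P' : Ideal (𝓞 K)) (hP : P.IsPrime) (hP' : P'.IsPrime)
    (hqP : (q : 𝓞 K) ∈ P) (hqP' : (q : 𝓞 K) ∈ P')
    (h : Algebra.IsUnramifiedAt ℤ P) : Algebra.IsUnramifiedAt ℤ P' := by
  let : MulSemiringAction Gal(K/ℚ) (𝓞 K) := IsIntegralClosure.MulSemiringAction ℤ ℚ K (𝓞 K)
  have hG := IsGaloisGroup.of_isFractionRing Gal(K/ℚ) ℤ (𝓞 K) ℚ K
  have hqmax : (Ideal.span {(q : ℤ)}).IsMaximal :=
    PrincipalIdealRing.isMaximal_of_irreducible (Nat.prime_iff_prime_int.mp hq).irreducible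
  have hunder : ∀ Q : Ideal (𝓞 K), Q.IsPrime → (q : 𝓞 K) ∈ Q → Q.under ℤ = Ideal.span {(q : ℤ)} := by
    intro Q hQ hqQ
    symm
    apply hqmax.eq_of_le (Ideal.IsPrime.ne_top inferInstance)
    rw [Ideal.span_singleton_le_iff_mem, Ideal.under, Ideal.mem_comap]
    simpa using hqQ
  have hl : P.LiesOver (Ideal.span {(q : ℤ)}) := ⟨(hunder P hP hqP).symm⟩
  have hl' : P'.LiesOver (Ideal.span {(q : ℤ)}) := ⟨(hunder P' hP' hqP').symm⟩
  have hmax : (P.under ℤ).IsMaximal := by rw [hunder P hP hqP]; exact hqmax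
  have hmax' : (P'.under ℤ).IsMaximal := by rw [hunder P' hP' hqP']; exact hqmax
  have e1 := Ideal.ramificationIdxIn_eq_ramificationIdx (Ideal.span {(q : ℤ)}) P Gal(K/ℚ)
  have e2 := Ideal.ramificationIdxIn_eq_ramificationIdx (Ideal.span {(q : ℤ)}) P' Gal(K/ℚ)
  rw [← Ideal.ramificationIdx_eq_one_iff] at h ⊢
  rw [← e2, e1, h]

/-- **Bridge**: if an inertia subgroup of `Gal(ℚ̄/ℚ)` above `q` fixes the finite Galois
subextension `L`, then every prime of `L` above `q` is unramified. -/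
theorem isUnramifiedAt_of_inertia_le (L : IntermediateField ℚ Qb) [FiniteDimensional ℚ L]
    [IsGalois ℚ L] (q : ℕ) (hq : q.Prime) (A : ValuationSubring Qb) (hA : A.LiesOverPrime q)
    (hI : ∀ σ ∈ A.inertiaSubgroupIn ℚ, σ ∈ L.fixingSubgroup)
    (P : Ideal (𝓞 L)) (hP : P.IsPrime) (hqP : (q : 𝓞 L) ∈ P) :
    Algebra.IsUnramifiedAt ℤ P := by
  have hnf : NumberField L :=
    { to_charZero := inferInstance, to_finiteDimensional := inferInstance }
  -- the prime of `𝓞 L` below `A`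
  let φ : 𝓞 L →+* A :=
    { toFun := fun x => ⟨((x : L) : Qb), mem_valuationSubring_of_isIntegral A
        (x.isIntegral_coe.map (IsScalarTower.toAlgHom ℤ L Qb))⟩
      map_one' := rfl
      map_mul' := fun _ _ => rfl
      map_zero' := rfl
      map_add' := fun _ _ => rfl }
  let PA : Ideal (𝓞 L) := Ideal.comap φ (IsLocalRing.maximalIdeal A)
  have hPAprime : PA.IsPrime := Ideal.comap_isPrime _ _
  have hmemP : ∀ y : 𝓞 L, y ∈ PA ↔ (((y : L) : Qb)) ∈ A.nonunits := by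
    intro y
    rw [Ideal.mem_comap, ← ValuationSubring.coe_mem_nonunits_iff]
    rfl
  have hqPA : ((q : ℕ) : 𝓞 L) ∈ PA := by
    rw [hmemP]
    have : (((q : 𝓞 L) : L) : Qb) = (q : Qb) := by simp
    rw [this]
    exact hA
  have hPA0 : PA ≠ ⊥ := by
    intro h
    rw [h, Ideal.mem_bot] at hqPA
    exact hq.ne_zero (by exact_mod_cast hqPA)
  have hPAunr : Algebra.IsUnramifiedAt ℤ PA := by
    by_contra hram
    obtain ⟨s, hs1, hs⟩ := exists_inertia_ne_one PA hPA0 hram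
    obtain ⟨σ, hσI, hσs⟩ := exists_mem_inertiaSubgroupIn_restrict A q hq hA L s (by
      intro x hx
      obtain ⟨y, hyP, hy⟩ := hs ⟨x, hx⟩
      have hy' : ((s x : L) : Qb) - (x : Qb) = (((y : L)) : Qb) :=
        congrArg (fun z : L => (z : Qb)) hy
      rw [hy']
      exact (hmemP y).mp hyP)
    have hfix := restrictNormalHom_eq_one_of_mem_fixingSubgroup L (hI σ hσI)
    exact hs1 (hσs ▸ hfix)
  exact isUnramifiedAt_of_isUnramifiedAt q hq PA P hPAprime hP hqPA hqP hPAunr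

end Fermat.Agent.HermiteMinkowski
end MergeWrap_Lib_HermiteMinkowski_Unramified

section MergeWrap_Lib_FFL_Unr -- from Lib/FFL/Unr.lean

set_option autoImplicit false

namespace Fermat.Agent.FFL

open NumberField Polynomial Fermat.Agent.FrobExists Fermat.Agent.Minkowski

/-! ### The inertia field is unramified (number fields) -/

section Abstract

variable (F : Type) [Field F] [NumberField F] [IsGalois ℚ F]

/-- The prime of the inertia field `E = F^{I(𝔓)}` below `𝔓` has ramification index `1` over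
`ℤ`. -/
theorem ramificationIdx_under_inertiaField (𝔓 : Ideal (𝓞 F)) [h𝔓 : 𝔓.IsPrime] :
    (𝔓.under (𝓞 (FixedPoints.intermediateField (𝔓.inertia Gal(F/ℚ)) :
      IntermediateField ℚ F))).ramificationIdx ℤ = 1 := by
  set H : Subgroup Gal(F/ℚ) := 𝔓.inertia Gal(F/ℚ) with hH
  set E : IntermediateField ℚ F := FixedPoints.intermediateField H with hE
  have hGE : IsGaloisGroup H E F := IsGaloisGroup.subgroup Gal(F/ℚ) ℚ F H
  have hGO : IsGaloisGroup H (𝓞 E) (𝓞 F) := IsGaloisGroup.of_isFractionRing H (𝓞 E) (𝓞 F) E F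
  set 𝔭E : Ideal (𝓞 E) := 𝔓.under (𝓞 E) with h𝔭E
  have hlies : 𝔓.LiesOver 𝔭E := ⟨rfl⟩
  have hliesZ : 𝔓.LiesOver (𝔓.under ℤ) := ⟨rfl⟩
  have htower := Ideal.ramificationIdx_tower (R := ℤ) 𝔭E 𝔓
  have h1 := Ideal.card_inertia_eq_ramificationIdxIn (G := H) 𝔭E 𝔓
  have h2 := Ideal.card_inertia_eq_ramificationIdxIn (G := Gal(F/ℚ)) (𝔓.under ℤ) 𝔓
  have h3 := Ideal.ramificationIdxIn_eq_ramificationIdx 𝔭E 𝔓 H
  have h4 := Ideal.ramificationIdxIn_eq_ramificationIdx (𝔓.under ℤ) 𝔓 Gal(F/ℚ)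
  have htop : 𝔓.inertia H = ⊤ := by
    rw [eq_top_iff]
    intro h _ x
    exact h.2 x
  have hcard : Nat.card (𝔓.inertia H) = Nat.card H := by
    rw [htop]
    exact Nat.card_congr Subgroup.topEquiv.toEquiv
  have hpos : 0 < Nat.card H := Nat.card_pos
  rw [h3] at h1
  rw [h4] at h2
  rw [hcard] at h1
  rw [← h2, ← h1] at htower
  have h5 : 𝔭E.ramificationIdx ℤ * Nat.card H = 1 * Nat.card H := by
    rw [one_mul]; exact htower.symm
  exact Nat.eq_of_mul_eq_mul_right hpos h5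

end Abstract

/-! ### The key lemma, with the denominator in a given subfield -/

attribute [local instance] isAlgebraic_Qb isAlgClosure_Qb

theorem hornerTail_mem_intermediateField (E' : IntermediateField ℚ Qb) {x : Qb} (hxE : x ∈ E')
    (q : ℤ[X]) (m : ℕ) : hornerTail x q m ∈ E' := by
  unfold hornerTail
  rw [aeval_eq_sum_range]
  refine sum_mem fun i _ => ?_
  exact zsmul_mem (pow_mem hxE i) _

/-- Every element `x` of `V ∩ E'` is a quotient of two algebraic integers of `E'`, with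
denominator a unit of `V`. -/
theorem exists_integral_mul_mem (V : ValuationSubring Qb) (E' : IntermediateField ℚ Qb) (x : Qb)
    (hx : x ∈ V) (hxE : x ∈ E') :
    ∃ s : Qb, s ∈ E' ∧ IsIntegral ℤ s ∧ s ∉ V.nonunits ∧ IsIntegral ℤ (s * x) := by
  obtain ⟨q, hprim, hq⟩ := exists_isPrimitive_aeval_eq_zero x
  by_contra hcon
  have htail : ∀ m : ℕ, hornerTail x q (m + 1) ∈ V.nonunits := by
    intro m
    by_contra hm
    refine hcon ⟨_, hornerTail_mem_intermediateField E' hxE q (m + 1),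
      isIntegral_hornerTail x q hq (m + 1), hm, ?_⟩
    have h := hornerTail_succ x q m
    have h2 : hornerTail x q (m + 1) * x = hornerTail x q m - (q.coeff m : Qb) := by
      rw [h]; ring
    rw [h2]
    exact (isIntegral_hornerTail x q hq m).sub isIntegral_algebraMap
  have htail0 : ∀ m : ℕ, hornerTail x q m ∈ V.nonunits := by
    intro m
    cases m with
    | zero => rw [hornerTail_zero, hq]; exact V.nonunits.zero_mem
    | succ m => exact htail m
  have hcoeff : ∀ m : ℕ, ((q.coeff m : ℤ) : Qb) ∈ V.nonunits := by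
    intro m
    have h := hornerTail_succ x q m
    have h2 : ((q.coeff m : ℤ) : Qb) = hornerTail x q m - x * hornerTail x q (m + 1) := by
      rw [h]; ring
    rw [h2]
    exact V.nonunits.sub_mem (htail0 m) (mul_mem_nonunits_of_mem V hx (htail m))
  let I : Ideal ℤ := Ideal.comap (Int.castRingHom V) (IsLocalRing.maximalIdeal V)
  have hI : ∀ n : ℤ, n ∈ I ↔ (n : Qb) ∈ V.nonunits := by
    intro n
    rw [Ideal.mem_comap, ← ValuationSubring.coe_mem_nonunits_iff]
    simp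
  have hItop : I ≠ ⊤ := by
    intro h
    have h1 : (1 : ℤ) ∈ I := h ▸ Submodule.mem_top
    rw [hI, ValuationSubring.mem_nonunits_iff] at h1
    simp at h1
  obtain ⟨d, hd⟩ : ∃ d : ℤ, I = Ideal.span {d} :=
    ⟨_, (Submodule.IsPrincipal.span_singleton_generator I).symm⟩
  have hdvd : C d ∣ q := by
    rw [C_dvd_iff_dvd_coeff]
    intro i
    rw [← Ideal.mem_span_singleton, ← hd, hI]
    exact hcoeff i
  have hunit : IsUnit d := hprim d hdvd
  exact hItop (hd ▸ Ideal.span_singleton_eq_top.mpr hunit)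

/-- An element of `V` which is not a nonunit has its inverse in `V`. -/
theorem inv_mem_of_not_mem_nonunits (V : ValuationSubring Qb) {u : Qb} (hu : u ∈ V)
    (hu' : u ∉ V.nonunits) : u⁻¹ ∈ V := by
  rw [ValuationSubring.mem_nonunits_iff, not_lt] at hu'
  have h1 : V.valuation u ≤ 1 := (V.valuation_le_one_iff u).mpr hu
  have h2 : V.valuation u = 1 := le_antisymm h1 hu'
  rw [← V.valuation_le_one_iff, map_inv₀, h2, inv_one]

/-! ### The theorem -/

/-- **UNR**: the fixed field of inertia is unramified: an inertia-fixed nonunit of `P` is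
divisible by `p` in `P`. -/
theorem unrProp (p : ℕ) (hp : p.Prime) (P : ValuationSubring Qb) (hP : P.LiesOverPrime p) :
    UnrProp p P := by
  intro x hx hfix
  -- a finite Galois field `F` containing `x`
  have hxint : IsIntegral ℚ x := (isAlgebraic_Qb.isAlgebraic x).isIntegral
  let F : IntermediateField ℚ Qb := IntermediateField.adjoin ℚ ((minpoly ℚ x).rootSet Qb)
  have hfin : FiniteDimensional ℚ F := by
    have : Finite ((minpoly ℚ x).rootSet Qb) := (rootSet_finite _ _).to_subtype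
    apply IntermediateField.finiteDimensional_adjoin
    intro y _
    exact (isAlgebraic_Qb.isAlgebraic y).isIntegral
  have hnorm : Normal ℚ F := by
    have : IsSplittingField ℚ F (minpoly ℚ x) :=
      IntermediateField.adjoin_rootSet_isSplittingField (IsAlgClosed.splits _)
    exact Normal.of_isSplittingField (minpoly ℚ x)
  have hgal : IsGalois ℚ F := ⟨⟩
  have hnf : NumberField F :=
    { to_charZero := inferInstance, to_finiteDimensional := inferInstance }
  have hxF : x ∈ F := IntermediateField.subset_adjoin _ _ (by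
    rw [mem_rootSet]; exact ⟨minpoly.ne_zero hxint, minpoly.aeval ℚ x⟩)
  -- the prime of `𝓞 F` below `P`
  let φ : 𝓞 F →+* P :=
    { toFun := fun y => ⟨((y : F) : Qb), mem_valuationSubring_of_isIntegral P
        (y.isIntegral_coe.map (IsScalarTower.toAlgHom ℤ F Qb))⟩
      map_one' := rfl
      map_mul' := fun _ _ => rfl
      map_zero' := rfl
      map_add' := fun _ _ => rfl }
  let 𝔓 : Ideal (𝓞 F) := Ideal.comap φ (IsLocalRing.maximalIdeal P)
  have h𝔓prime : 𝔓.IsPrime := Ideal.comap_isPrime _ _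
  have hmem𝔓 : ∀ y : 𝓞 F, y ∈ 𝔓 ↔ (((y : F) : Qb)) ∈ P.nonunits := by
    intro y
    rw [Ideal.mem_comap, ← ValuationSubring.coe_mem_nonunits_iff]
    rfl
  -- the inertia group of `𝔓` fixes `x`
  have hfixF : ∀ s ∈ 𝔓.inertia Gal(F/ℚ), s ⟨x, hxF⟩ = ⟨x, hxF⟩ := by
    intro s hs
    obtain ⟨σ, hσI, hσs⟩ := exists_mem_inertiaSubgroupIn_restrict P p hp hP F s (by
      intro y hy
      let y' : 𝓞 F := ⟨y, hy⟩
      have h1 : s • y' - y' ∈ 𝔓 := hs y'
      have h1' := (hmem𝔓 _).mp h1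
      have h2 : (((s • y' - y' : 𝓞 F) : F) : Qb) = ((s y : F) : Qb) - (y : Qb) := rfl
      rw [h2] at h1'
      exact h1')
    apply Subtype.ext
    rw [← hσs]
    exact (AlgEquiv.restrictNormal_commutes σ F ⟨x, hxF⟩).trans (hfix σ hσI)
  -- the inertia field
  let E : IntermediateField ℚ F := FixedPoints.intermediateField (𝔓.inertia Gal(F/ℚ))
  have hxE : (⟨x, hxF⟩ : F) ∈ E := fun g => hfixF g.1 g.2
  have he : (𝔓.under (𝓞 E)).ramificationIdx ℤ = 1 := ramificationIdx_under_inertiaField F 𝔓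
  let 𝔭 : Ideal (𝓞 E) := 𝔓.under (𝓞 E)
  have h𝔭prime : 𝔭.IsPrime := inferInstance
  -- the embedding of `𝓞 E` into `ℚ̄`
  let ι : 𝓞 E →+* Qb := (algebraMap F Qb).comp ((algebraMap E F).comp (algebraMap (𝓞 E) E))
  have hιint : ∀ y : 𝓞 E, IsIntegral ℤ (ι y) := by
    intro y
    have h1 : IsIntegral ℤ (y : E) := y.isIntegral_coe
    have h2 : IsIntegral ℤ ((y : E) : F) := h1.map (IsScalarTower.toAlgHom ℤ E F)
    exact h2.map (IsScalarTower.toAlgHom ℤ F Qb)
  have hιP : ∀ y : 𝓞 E, ι y ∈ P := fun y => mem_valuationSubring_of_isIntegral P (hιint y)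
  have hι𝔭 : ∀ y : 𝓞 E, y ∈ 𝔭 ↔ ι y ∈ P.nonunits := by
    intro y
    show algebraMap (𝓞 E) (𝓞 F) y ∈ 𝔓 ↔ _
    rw [hmem𝔓]
    rfl
  have hιsurj : ∀ z : Qb, z ∈ E.map F.val → IsIntegral ℤ z → ∃ y : 𝓞 E, ι y = z := by
    rintro z ⟨zF, hzE, rfl⟩ hz
    have h1 : IsIntegral ℤ zF :=
      (isIntegral_algebraMap_iff (FaithfulSMul.algebraMap_injective F Qb)).mp hz
    have h2 : IsIntegral ℤ (⟨zF, hzE⟩ : E) :=
      (isIntegral_algebraMap_iff (FaithfulSMul.algebraMap_injective E F)).mp h1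
    exact ⟨⟨⟨zF, hzE⟩, h2⟩, rfl⟩
  -- `x = a / s`
  have hxP : x ∈ P := P.nonunits_subset hx
  have hxE' : x ∈ E.map F.val := ⟨⟨x, hxF⟩, hxE, rfl⟩
  obtain ⟨s, hsE, hsint, hsunit, hsxint⟩ := exists_integral_mul_mem P (E.map F.val) x hxP hxE'
  have hsP : s ∈ P := mem_valuationSubring_of_isIntegral P hsint
  obtain ⟨aE, haE⟩ := hιsurj (s * x) (mul_mem hsE hxE') hsxint
  have ha𝔭 : aE ∈ 𝔭 := by
    rw [hι𝔭, haE]
    exact mul_mem_nonunits_of_mem P hsP hx
  -- `p 𝓞_E = 𝔭 Q`, `Q ⊄ 𝔭`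
  have hqmax : (Ideal.span {(p : ℤ)}).IsMaximal :=
    PrincipalIdealRing.isMaximal_of_irreducible (Nat.prime_iff_prime_int.mp hp).irreducible
  have hp𝔭 : ((p : ℕ) : 𝓞 E) ∈ 𝔭 := by
    rw [hι𝔭]
    have : ι ((p : ℕ) : 𝓞 E) = (p : Qb) := by simp
    rw [this]
    exact hP
  have hunder : 𝔭.under ℤ = Ideal.span {(p : ℤ)} := by
    symm
    apply hqmax.eq_of_le (Ideal.IsPrime.ne_top inferInstance)
    rw [Ideal.span_singleton_le_iff_mem, Ideal.under, Ideal.mem_comap]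
    simpa using hp𝔭
  have hlies : 𝔭.LiesOver (Ideal.span {(p : ℤ)}) := ⟨hunder.symm⟩
  have hmap : (Ideal.span {(p : ℤ)}).map (algebraMap ℤ (𝓞 E)) = Ideal.span {((p : ℕ) : 𝓞 E)} := by
    rw [Ideal.map_span, Set.image_singleton]
    simp
  have hpE0 : ((p : ℕ) : 𝓞 E) ≠ 0 := by
    exact_mod_cast hp.ne_zero
  have hp0 : (Ideal.span {(p : ℤ)}).map (algebraMap ℤ (𝓞 E)) ≠ ⊥ := by
    rw [hmap, Ne, Ideal.span_singleton_eq_bot]
    exact hpE0
  have h𝔭0 : 𝔭 ≠ ⊥ := by
    intro h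
    rw [h, Ideal.mem_bot] at hp𝔭
    exact hpE0 hp𝔭
  have h𝔭max : 𝔭.IsMaximal := h𝔭prime.isMaximal h𝔭0
  have hcount := Ideal.IsDedekindDomain.ramificationIdx_eq_normalizedFactors_count
    (Ideal.span {(p : ℤ)}) 𝔭 hp0
  obtain ⟨Q, hQ, hfac⟩ := Ideal.eq_prime_pow_mul_coprime hp0 𝔭
  rw [← hcount, he, pow_one, hmap] at hfac
  obtain ⟨t, htQ, ht𝔭⟩ : ∃ t ∈ Q, t ∉ 𝔭 := by
    by_contra hcon
    push Not at hcon
    have hle : Q ≤ 𝔭 := hcon
    rw [sup_of_le_left hle] at hQ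
    exact h𝔭prime.ne_top hQ
  have hmem : aE * t ∈ Ideal.span {((p : ℕ) : 𝓞 E)} := by
    rw [hfac]
    exact Ideal.mul_mem_mul ha𝔭 htQ
  rw [Ideal.mem_span_singleton'] at hmem
  obtain ⟨b, hb⟩ := hmem
  -- conclusion
  have hb' : ι b * (p : Qb) = s * x * ι t := by
    have h := congrArg ι hb
    rw [map_mul, map_mul, haE] at h
    rw [← h]
    simp
  have htunit : ι t ∉ P.nonunits := fun h => ht𝔭 ((hι𝔭 t).mpr h)
  have hs0 : s ≠ 0 := fun h => hsunit (h ▸ P.nonunits.zero_mem)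
  have ht0 : ι t ≠ 0 := fun h => htunit (h ▸ P.nonunits.zero_mem)
  have hpQ0 : (p : Qb) ≠ 0 := by exact_mod_cast hp.ne_zero
  have hfinal : x / (p : Qb) = ι b * (ι t)⁻¹ * s⁻¹ := by
    field_simp
    rw [mul_comm (p : Qb), hb']
    ring
  rw [hfinal]
  exact P.mul_mem _ _ (P.mul_mem _ _ (hιP b) (inv_mem_of_not_mem_nonunits P (hιP t) htunit))
    (inv_mem_of_not_mem_nonunits P hsP hsunit)

end Fermat.Agent.FFL
end MergeWrap_Lib_FFL_Unr
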