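import Mathlib
import Fermat.Agent.MUL.Lib.FFL.Defs
import Fermat.Agent.MUL.Orig.Lib.FF.PlacesQbar
import Fermat.Agent.MUL.Orig.Lib.Cyclo.RootsReduce
import Fermat.Agent.MUL.Lib.FlatMod.Points
import Fermat.Agent.MUL.Lib.FlatMod.Order
import Fermat.Agent.MUL.S36.G.Defs

section MergeWrap_Lib_FFL_Red -- from Lib/FFL/Red.lean

set_option autoImplicit false
set_option linter.style.haveILetI false
set_option linter.unusedSectionVars false

namespace Fermat.Agent.FFL

open GaloisRep TensorProduct WithConv Fermat.Agent.FlatMod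
open scoped Pointwise

local notation "Kb" => AlgebraicClosure ℚ
local notation "GK" => (AlgebraicClosure ℚ ≃ₐ[ℚ] AlgebraicClosure ℚ)

variable {p : ℕ}

section Nonunits

variable (P : ValuationSubring Kb)

theorem red_zero_mem_nonunits : (0 : Kb) ∈ P.nonunits := by
  rw [ValuationSubring.mem_nonunits_iff, map_zero]
  exact zero_lt_one

theorem red_add_mem_nonunits {x y : Kb} (hx : x ∈ P.nonunits) (hy : y ∈ P.nonunits) :
    x + y ∈ P.nonunits := by
  rw [ValuationSubring.mem_nonunits_iff] at hx hy ⊢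
  exact lt_of_le_of_lt (P.valuation.map_add x y) (max_lt hx hy)

theorem red_neg_mem_nonunits {x : Kb} (hx : x ∈ P.nonunits) : -x ∈ P.nonunits := by
  rw [ValuationSubring.mem_nonunits_iff] at hx ⊢
  rwa [Valuation.map_neg]

theorem red_sub_mem_nonunits {x y : Kb} (hx : x ∈ P.nonunits) (hy : y ∈ P.nonunits) :
    x - y ∈ P.nonunits := by
  rw [sub_eq_add_neg]
  exact red_add_mem_nonunits P hx (red_neg_mem_nonunits P hy)

theorem red_mul_mem_nonunits_left {x y : Kb} (hx : x ∈ P) (hy : y ∈ P.nonunits) :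
    x * y ∈ P.nonunits := by
  rw [ValuationSubring.mem_nonunits_iff] at hy ⊢
  rw [map_mul]
  exact mul_lt_one_of_nonneg_of_lt_one_right ((P.valuation_le_one_iff x).2 hx) zero_le hy

theorem red_mul_mem_nonunits_right {x y : Kb} (hx : x ∈ P.nonunits) (hy : y ∈ P) :
    x * y ∈ P.nonunits := by
  rw [mul_comm]
  exact red_mul_mem_nonunits_left P hy hx

theorem red_mem_of_mem_nonunits {x : Kb} (hx : x ∈ P.nonunits) : x ∈ P := by
  rw [ValuationSubring.mem_nonunits_iff] at hx
  exact (P.valuation_le_one_iff x).1 hx.le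

/-- Elements of the decomposition group preserve the maximal ideal. -/
theorem red_decomp_mem_nonunits {σ : GK} (hσ : σ ∈ P.decompositionSubgroup ℚ) {x : Kb}
    (hx : x ∈ P.nonunits) : σ x ∈ P.nonunits := by
  have h1 : σ • P = P := MulAction.mem_stabilizer_iff.mp hσ
  have h2 := (Fermat.Agent.FF.pl_mem_nonunits_smul_iff σ P (σ x)).2
  rw [h1] at h2
  apply h2
  have : σ⁻¹ (σ x) = x := by
    show (σ⁻¹ * σ) x = x
    rw [inv_mul_cancel]
    rfl
  rw [this]
  exact hx

/-- Congruence of the functionals `φ ⊗ ψ` and `φ' ⊗ ψ'` modulo the maximal ideal of `P`. -/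
theorem red_tmulFun_sub_mem_nonunits {B₁ B₂ : Type*} [AddCommGroup B₁]
    [Module (ratLocalizedAt p) B₁] [AddCommGroup B₂] [Module (ratLocalizedAt p) B₂]
    (φ φ' : B₁ →ₗ[ratLocalizedAt p] Kb) (ψ ψ' : B₂ →ₗ[ratLocalizedAt p] Kb)
    (hφ' : ∀ a, φ' a ∈ P) (hψ : ∀ b, ψ b ∈ P)
    (hφ : ∀ a, φ a - φ' a ∈ P.nonunits) (hψψ : ∀ b, ψ b - ψ' b ∈ P.nonunits)
    (z : B₁ ⊗[ratLocalizedAt p] B₂) :
    tmulFun φ ψ z - tmulFun φ' ψ' z ∈ P.nonunits := by
  induction z with
  | zero =>
    rw [map_zero, map_zero, sub_zero]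
    exact red_zero_mem_nonunits P
  | tmul a b =>
    rw [tmulFun_tmul, tmulFun_tmul]
    have h1 : φ a * ψ b - φ' a * ψ' b = (φ a - φ' a) * ψ b + φ' a * (ψ b - ψ' b) := by ring
    rw [h1]
    exact red_add_mem_nonunits P (red_mul_mem_nonunits_right P (hφ a) (hψ b))
      (red_mul_mem_nonunits_left P (hφ' a) (hψψ b))
  | add x y hx hy =>
    rw [map_add, map_add, add_sub_add_comm]
    exact red_add_mem_nonunits P hx hy

end Nonunits

section Order

variable {W : Type*} [AddCommGroup W] {act : GK → W → W} (O : HopfOrder p W act)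

/-- The values of the functions of a Hopf order are integral over `ℤ_(p)`. -/
theorem isIntegral_apply_of_hopfOrder {h : W → Kb} (hh : h ∈ O.alg) (w : W) :
    IsIntegral (ratLocalizedAt p) (h w) := by
  haveI : Module.Finite (ratLocalizedAt p) O.alg := O.fin
  exact (Algebra.IsIntegral.isIntegral (R := ratLocalizedAt p) (⟨h, hh⟩ : O.alg)).map
    (evPt O.alg w)

variable [Fact p.Prime] {P : ValuationSubring Kb}

/-- The values of the functions of a Hopf order lie in every valuation subring over `p`. -/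
theorem apply_mem_of_hopfOrder (hP : P.LiesOverPrime p) {h : W → Kb} (hh : h ∈ O.alg)
    (w : W) : h w ∈ P :=
  Fermat.Agent.FF.mem_of_isIntegral_of_liesOverPrime P hP (isIntegral_apply_of_hopfOrder O hh w)

theorem mem_redKer_iff (w : W) :
    w ∈ redKer P (O.alg : Set (W → Kb)) ↔ ∀ h ∈ O.alg, h w - h 0 ∈ P.nonunits := Iff.rfl

theorem zero_mem_redKer : (0 : W) ∈ redKer P (O.alg : Set (W → Kb)) := fun h _ => by
  rw [sub_self]
  exact red_zero_mem_nonunits P

/-- Two pairs of congruent points have congruent sums. -/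
theorem add_congr_of_hopfOrder (hP : P.LiesOverPrime p) {w₁ w₁' w₂ w₂' : W}
    (h₁ : ∀ h ∈ O.alg, h w₁ - h w₁' ∈ P.nonunits)
    (h₂ : ∀ h ∈ O.alg, h w₂ - h w₂' ∈ P.nonunits) :
    ∀ h ∈ O.alg, h (w₁ + w₂) - h (w₁' + w₂') ∈ P.nonunits := by
  intro h hh
  obtain ⟨z, hz⟩ := O.add h hh
  rw [← hz, ← hz]
  exact red_tmulFun_sub_mem_nonunits P _ _ _ _
    (fun a => apply_mem_of_hopfOrder O hP a.2 w₁')
    (fun b => apply_mem_of_hopfOrder O hP b.2 w₂)
    (fun a => h₁ a.1 a.2) (fun b => h₂ b.1 b.2) z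

theorem add_mem_redKer (hP : P.LiesOverPrime p) {w w' : W}
    (hw : w ∈ redKer P (O.alg : Set (W → Kb))) (hw' : w' ∈ redKer P (O.alg : Set (W → Kb))) :
    w + w' ∈ redKer P (O.alg : Set (W → Kb)) := by
  intro h hh
  have := add_congr_of_hopfOrder O hP (w₁ := w) (w₁' := 0) (w₂ := w') (w₂' := 0) hw hw' h hh
  rwa [add_zero] at this

theorem neg_mem_redKer {w : W} (hw : w ∈ redKer P (O.alg : Set (W → Kb))) :
    -w ∈ redKer P (O.alg : Set (W → Kb)) := by
  intro h hh
  have := hw _ (O.neg h hh)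
  simpa using this

/-- The kernel of reduction of a Hopf order as an additive subgroup. -/
def redKerSubgroup (hP : P.LiesOverPrime p) : AddSubgroup W where
  carrier := redKer P (O.alg : Set (W → Kb))
  zero_mem' := zero_mem_redKer O
  add_mem' := fun hw hw' => add_mem_redKer O hP hw hw'
  neg_mem' := fun hw => neg_mem_redKer O hw

@[simp] theorem coe_redKerSubgroup (hP : P.LiesOverPrime p) :
    (redKerSubgroup O hP : Set W) = redKer P (O.alg : Set (W → Kb)) := rfl

theorem mem_redKerSubgroup (hP : P.LiesOverPrime p) (w : W) :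
    w ∈ redKerSubgroup O hP ↔ w ∈ redKer P (O.alg : Set (W → Kb)) := Iff.rfl

/-- The kernel of reduction is stable under the decomposition group. -/
theorem act_mem_redKer {σ : GK} (hσ : σ ∈ P.decompositionSubgroup ℚ) {w : W}
    (hw : w ∈ redKer P (O.alg : Set (W → Kb))) :
    act σ w ∈ redKer P (O.alg : Set (W → Kb)) := by
  intro h hh
  have h0 : h 0 = σ (h 0) := by
    rw [← O.equiv h hh σ 0, O.act_zero]
  rw [O.equiv h hh, h0, ← map_sub]
  exact red_decomp_mem_nonunits P hσ (hw h hh)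

/-- The inertia group moves the points inside their class modulo the kernel of reduction. -/
theorem act_sub_mem_redKer (hP : P.LiesOverPrime p) {σ : GK}
    (hσ : σ ∈ P.inertiaSubgroupIn ℚ) (v : W) :
    act σ v - v ∈ redKer P (O.alg : Set (W → Kb)) := by
  intro h hh
  have h1 : ∀ h ∈ O.alg, h (act σ v) - h v ∈ P.nonunits := by
    intro h hh
    rw [O.equiv h hh]
    exact Fermat.Agent.Cyclo.inertia_sub_mem_nonunits P hσ (apply_mem_of_hopfOrder O hP hh v)
  have h2 : ∀ h ∈ O.alg, h (-v) - h (-v) ∈ P.nonunits := by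
    intro h _
    rw [sub_self]
    exact red_zero_mem_nonunits P
  have := add_congr_of_hopfOrder O hP h1 h2 h hh
  rwa [← sub_eq_add_neg, ← sub_eq_add_neg, sub_self] at this

/-- The kernel of reduction contains the augmentation subgroup of inertia. -/
theorem augI_le_redKerSubgroup (hP : P.LiesOverPrime p) :
    augI P act ≤ redKerSubgroup O hP := by
  unfold augI augOn
  rw [AddSubgroup.closure_le]
  rintro _ ⟨σ, hσ, v, -, rfl⟩
  exact act_sub_mem_redKer O hP hσ v

theorem augI_subset_redKer (hP : P.LiesOverPrime p) :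
    (augI P act : Set W) ⊆ redKer P (O.alg : Set (W → Kb)) :=
  fun _ hw => augI_le_redKerSubgroup O hP hw

/-- The inertia group acts trivially on `W` modulo the kernel of reduction. -/
theorem augOn_le_redKerSubgroup (hP : P.LiesOverPrime p) (N : Set W) :
    augOn P act N ≤ redKerSubgroup O hP := by
  unfold augOn
  rw [AddSubgroup.closure_le]
  rintro _ ⟨σ, hσ, v, -, rfl⟩
  exact act_sub_mem_redKer O hP hσ v

end Order

section Construct

variable {W : Type*} [AddCommGroup W] {act : GK → W → W}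

/-- A Hopf order from a finite algebra mapping to the functions on `W`. -/
noncomputable def hopfOrderOfAlgHom {H₀ : Type*} [CommRing H₀] [Algebra (ratLocalizedAt p) H₀]
    [Module.Finite (ratLocalizedAt p) H₀] (Φ : H₀ →ₐ[ratLocalizedAt p] (W → Kb))
    (hequiv : ∀ (h : H₀) (σ : GK) (w : W), Φ h (act σ w) = σ (Φ h w))
    (hsep : ∀ w w' : W, (∀ h : H₀, Φ h w = Φ h w') → w = w')
    (hadd : ∀ h : H₀, ∃ z : H₀ ⊗[ratLocalizedAt p] H₀, ∀ w w' : W,
      tmulFun ((Pi.evalAlgHom (ratLocalizedAt p) (fun _ : W => Kb) w).comp Φ).toLinearMap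
        ((Pi.evalAlgHom (ratLocalizedAt p) (fun _ : W => Kb) w').comp Φ).toLinearMap z =
        Φ h (w + w'))
    (hneg : ∀ h : H₀, ∃ h' : H₀, ∀ w : W, Φ h (-w) = Φ h' w) :
    HopfOrder p W act where
  alg := Φ.range
  fin := Module.Finite.of_surjective Φ.rangeRestrict.toLinearMap Φ.rangeRestrict_surjective
  equiv := by
    rintro _ ⟨h, rfl⟩ σ w
    exact hequiv h σ w
  sep := fun w w' hww => hsep w w' (fun h => hww _ ⟨h, rfl⟩)
  add := by
    rintro _ ⟨h, rfl⟩
    obtain ⟨z, hz⟩ := hadd h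
    refine ⟨TensorProduct.map Φ.rangeRestrict.toLinearMap Φ.rangeRestrict.toLinearMap z,
      fun w w' => ?_⟩
    rw [tmulFun_map]
    exact hz w w'
  neg := by
    rintro _ ⟨h, rfl⟩
    obtain ⟨h', hh'⟩ := hneg h
    refine ⟨h', ?_⟩
    funext w
    exact (hh' w).symm

@[simp] theorem hopfOrderOfAlgHom_alg {H₀ : Type*} [CommRing H₀]
    [Algebra (ratLocalizedAt p) H₀]
    [Module.Finite (ratLocalizedAt p) H₀] (Φ : H₀ →ₐ[ratLocalizedAt p] (W → Kb))
    (hequiv : ∀ (h : H₀) (σ : GK) (w : W), Φ h (act σ w) = σ (Φ h w))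
    (hsep : ∀ w w' : W, (∀ h : H₀, Φ h w = Φ h w') → w = w')
    (hadd : ∀ h : H₀, ∃ z : H₀ ⊗[ratLocalizedAt p] H₀, ∀ w w' : W,
      tmulFun ((Pi.evalAlgHom (ratLocalizedAt p) (fun _ : W => Kb) w).comp Φ).toLinearMap
        ((Pi.evalAlgHom (ratLocalizedAt p) (fun _ : W => Kb) w').comp Φ).toLinearMap z =
        Φ h (w + w'))
    (hneg : ∀ h : H₀, ∃ h' : H₀, ∀ w : W, Φ h (-w) = Φ h' w) :
    (hopfOrderOfAlgHom (act := act) Φ hequiv hsep hadd hneg).alg = Φ.range := rfl

end Construct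

section ToOrder

/-- **TO-ORDER**: a flat Galois module carries a Hopf order. -/
theorem nonempty_hopfOrder_of_isFlat {M : Type} [AddCommGroup M] {act : GK → M → M}
    (h : IsFlatGaloisModule p M act) : Nonempty (HopfOrder p M act) := by
  obtain ⟨H, i1, i2, hfin, -, hcocomm, e, he1, he2⟩ := h
  have hone : e 1 = 0 := by
    have := he1 1 1
    rw [mul_one] at this
    exact left_eq_add.1 this
  have hinv : ∀ f, e (invPt f) = - e f := by
    intro f
    have := he1 (invPt f) f
    rw [invPt_mul, hone] at this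
    exact eq_neg_of_add_eq_zero_left this.symm
  have hgal : ∀ σ f, e (galPt σ f) = act σ (e f) := fun σ f =>
    he2 σ f (galPt σ f) (fun _ => rfl)
  let Φ : H →ₐ[ratLocalizedAt p] (M → Kb) :=
    AlgHom.pi (fun m => (e.symm m).ofConv)
  have hΦ : ∀ (h : H) (m : M), Φ h m = (e.symm m) h := fun _ _ => rfl
  refine ⟨hopfOrderOfAlgHom Φ ?_ ?_ ?_ ?_⟩
  · intro h σ m
    rw [hΦ, hΦ]
    have h1 : e.symm (act σ m) = galPt σ (e.symm m) := by
      rw [Equiv.symm_apply_eq, hgal, Equiv.apply_symm_apply]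
    rw [h1]
    rfl
  · intro m m' hmm
    apply e.symm.injective
    apply WithConv.ext
    apply AlgHom.ext
    intro h
    exact hmm h
  · intro h
    refine ⟨Coalgebra.comul (R := ratLocalizedAt p) h, fun w w' => ?_⟩
    have h1 : e.symm (w + w') = e.symm w * e.symm w' := by
      rw [Equiv.symm_apply_eq, he1, Equiv.apply_symm_apply, Equiv.apply_symm_apply]
    rw [hΦ, h1, convMul_apply_eq_tmulFun]
    rfl
  · intro h
    refine ⟨HopfAlgebra.antipode (ratLocalizedAt p) h, fun w => ?_⟩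
    have h1 : e.symm (-w) = invPt (e.symm w) := by
      rw [Equiv.symm_apply_eq, hinv, Equiv.apply_symm_apply]
    rw [hΦ, hΦ, h1]
    rfl

end ToOrder

section Restrict

variable {W : Type*} [AddCommGroup W] {act : GK → W → W}

/-- Restriction of functions to a subgroup, as an algebra homomorphism. -/
noncomputable def resFun (N : AddSubgroup W) :
    (W → Kb) →ₐ[ratLocalizedAt p] (N → Kb) :=
  AlgHom.pi (fun n : N => Pi.evalAlgHom (ratLocalizedAt p) (fun _ : W => Kb) (n : W))

@[simp] theorem resFun_apply (N : AddSubgroup W) (f : W → Kb) (n : N) :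
    resFun (p := p) N f n = f n := rfl

/-- **RESTR**: the restriction of a Hopf order to a Galois-stable subgroup. -/
noncomputable def _root_.Fermat.Agent.FlatMod.HopfOrder.restrict (O : HopfOrder p W act)
    (N : AddSubgroup W) (hN : ∀ σ : GK, ∀ n ∈ N, act σ n ∈ N) :
    HopfOrder p N (fun σ n => ⟨act σ n.1, hN σ n.1 n.2⟩) :=
  haveI : Module.Finite (ratLocalizedAt p) O.alg := O.fin
  hopfOrderOfAlgHom ((resFun N).comp O.alg.val)
    (fun h σ n => O.equiv h.1 h.2 σ n.1)
    (fun n n' hnn => Subtype.ext (O.sep n.1 n'.1 (fun h hh => hnn ⟨h, hh⟩)))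
    (fun h => by
      obtain ⟨z, hz⟩ := O.add h.1 h.2
      exact ⟨z, fun n n' => hz n.1 n'.1⟩)
    (fun h => ⟨⟨_, O.neg h.1 h.2⟩, fun _ => rfl⟩)

theorem mem_restrict_alg (O : HopfOrder p W act)
    (N : AddSubgroup W) (hN : ∀ σ : GK, ∀ n ∈ N, act σ n ∈ N) (f : N → Kb) :
    f ∈ (O.restrict N hN).alg ↔ ∃ h ∈ O.alg, f = fun n : N => h (n : W) := by
  constructor
  · rintro ⟨h, rfl⟩
    exact ⟨h.1, h.2, rfl⟩
  · rintro ⟨h, hh, rfl⟩
    exact ⟨⟨h, hh⟩, rfl⟩

/-- The kernel of reduction of the restriction is the trace of the kernel of reduction. -/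
theorem redKer_restrict (P : ValuationSubring Kb) (O : HopfOrder p W act)
    (N : AddSubgroup W) (hN : ∀ σ : GK, ∀ n ∈ N, act σ n ∈ N) (n : N) :
    n ∈ redKer P ((O.restrict N hN).alg : Set (N → Kb)) ↔
      (n : W) ∈ redKer P (O.alg : Set (W → Kb)) := by
  constructor
  · intro hn h hh
    exact hn (fun n : N => h (n : W)) ((mem_restrict_alg O N hN _).2 ⟨h, hh, rfl⟩)
  · intro hn f hf
    obtain ⟨h, hh, rfl⟩ := (mem_restrict_alg O N hN f).1 hf
    exact hn h hh

end Restrict


end Fermat.Agent.FFL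
end MergeWrap_Lib_FFL_Red
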