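import Mathlib
import Fermat.Agent.MUL.Lib.FFL.Defs
import Fermat.Agent.MUL.S27.GR.Lift

section MergeWrap_Lib_FFL_Base -- from Lib/FFL/Base.lean

set_option autoImplicit false
set_option linter.unusedSectionVars false

namespace Fermat.Agent.FFL

open Fermat.Agent.FlatMod GaloisRep

local notation "Kb" => AlgebraicClosure ℚ
local notation "GK" => (AlgebraicClosure ℚ ≃ₐ[ℚ] AlgebraicClosure ℚ)

variable {p : ℕ} {P : ValuationSubring Kb}

/-- Natural numbers belong to the inertia ring. -/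
theorem base_natCast_mem_inertiaRing (P : ValuationSubring Kb) (n : ℕ) : (n : Kb) ∈ inertiaRing P :=
  natCast_mem (inertiaRing P) n

/-- An element of `P` which is not a nonunit has its inverse in `P`. -/
theorem base_inv_mem_of_not_mem_nonunits {u : Kb} (hu : u ∈ P) (hnu : u ∉ P.nonunits) : u⁻¹ ∈ P := by
  have h1 : P.valuation u ≤ 1 := (P.valuation_le_one_iff u).2 hu
  have h2 : ¬ P.valuation u < 1 := fun h => hnu ((P.mem_nonunits_iff).2 h)
  have h3 : P.valuation u = 1 := le_antisymm h1 (not_lt.1 h2)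
  rw [← P.valuation_le_one_iff, map_inv₀, h3, inv_one]

/-- `p⁻¹ ∉ P` for `P` over `p ≠ 0`. -/
theorem inv_natCast_not_mem (hp : p ≠ 0) (hP : P.LiesOverPrime p) : ((p : Kb))⁻¹ ∉ P := by
  intro h
  have hp0 : (p : Kb) ≠ 0 := Nat.cast_ne_zero.2 hp
  have h1 : P.valuation (p : Kb) < 1 := (P.mem_nonunits_iff).1 hP
  have h2 : P.valuation ((p : Kb))⁻¹ ≤ 1 := (P.valuation_le_one_iff _).2 h
  have h4 : P.valuation ((p : Kb) * (p : Kb)⁻¹) < 1 := by
    rw [map_mul]
    calc P.valuation (p : Kb) * P.valuation ((p : Kb))⁻¹ ≤ P.valuation (p : Kb) * 1 :=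
          mul_le_mul_right h2 _
      _ = P.valuation (p : Kb) := mul_one _
      _ < 1 := h1
  rw [mul_inv_cancel₀ hp0, map_one] at h4
  exact lt_irrefl _ h4

/-- No negative power of `p` lies in `P`: if `p ^ k * y ∈ P` ... in the form used below:
`x / p ^ k ∈ P` and `p ^ m / x ∈ P` force `k ≤ m`. -/
theorem le_of_div_mem_of_div_mem (hp : p ≠ 0) (hP : P.LiesOverPrime p) {x : Kb} (hx : x ≠ 0)
    {k m : ℕ} (h1 : x / (p : Kb) ^ k ∈ P) (h2 : (p : Kb) ^ m / x ∈ P) : k ≤ m := by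
  by_contra hlt
  rw [not_le] at hlt
  have hp0 : (p : Kb) ≠ 0 := Nat.cast_ne_zero.2 hp
  obtain ⟨j, rfl⟩ : ∃ j, k = m + 1 + j := ⟨k - (m + 1), by omega⟩
  have h3 : x / (p : Kb) ^ (m + 1 + j) * ((p : Kb) ^ m / x) * (p : Kb) ^ j ∈ P :=
    P.mul_mem _ _ (P.mul_mem _ _ h1 h2) (pow_mem (natCast_mem P p) j)
  have h4 : x / (p : Kb) ^ (m + 1 + j) * ((p : Kb) ^ m / x) * (p : Kb) ^ j = ((p : Kb))⁻¹ := by
    field_simp
    ring
  rw [h4] at h3
  exact inv_natCast_not_mem hp hP h3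

/-- The inertia-fixed elements are stable under division. -/
theorem fixed_div {σ : GK} {a b : Kb} (ha : σ a = a) (hb : σ b = b) : σ (a / b) = a / b := by
  rw [map_div₀, ha, hb]

theorem fixed_natCast_pow (σ : GK) (n k : ℕ) : σ ((n : Kb) ^ k) = (n : Kb) ^ k := by
  rw [map_pow, map_natCast]

/-- **Factorisation** `x = p ^ n * u`, `u` a unit of the inertia ring. -/
theorem exists_eq_pow_mul_unit (hp : p ≠ 0) (hP : P.LiesOverPrime p) (hunr : UnrProp p P)
    (hdvd : DvdProp p P) {x : Kb} (hx : x ∈ inertiaRing P) (hx0 : x ≠ 0) :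
    ∃ (n : ℕ) (u : Kb), u ∈ inertiaRing P ∧ u⁻¹ ∈ inertiaRing P ∧ x = (p : Kb) ^ n * u := by
  classical
  have hp0 : (p : Kb) ≠ 0 := Nat.cast_ne_zero.2 hp
  obtain ⟨m, hm⟩ := hdvd x hx0
  -- the largest `k ≤ m` with `x / p ^ k ∈ P`
  let Q : ℕ → Prop := fun k => x / (p : Kb) ^ k ∈ P
  have hQ0 : Q 0 := by
    show x / (p : Kb) ^ 0 ∈ P
    rw [pow_zero, div_one]
    exact hx.1
  set n := Nat.findGreatest Q m with hn
  have hQn : Q n := Nat.findGreatest_spec (P := Q) (Nat.zero_le m) hQ0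
  have hQn1 : ¬ Q (n + 1) := by
    intro h
    have hle : n + 1 ≤ m := le_of_div_mem_of_div_mem hp hP hx0 h hm
    have := Nat.le_findGreatest (P := Q) hle h
    omega
  refine ⟨n, x / (p : Kb) ^ n, ?_, ?_, ?_⟩
  · exact ⟨hQn, fun σ hσ => fixed_div (hx.2 σ hσ) (fixed_natCast_pow σ p n)⟩
  · have hfix : ∀ σ ∈ P.inertiaSubgroupIn ℚ, σ (x / (p : Kb) ^ n) = x / (p : Kb) ^ n :=
      fun σ hσ => fixed_div (hx.2 σ hσ) (fixed_natCast_pow σ p n)
    have hnu : x / (p : Kb) ^ n ∉ P.nonunits := by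
      intro h
      apply hQn1
      have := hunr _ h hfix
      show x / (p : Kb) ^ (n + 1) ∈ P
      rw [pow_succ, ← div_div]
      exact this
    refine ⟨base_inv_mem_of_not_mem_nonunits hQn hnu, fun σ hσ => ?_⟩
    rw [map_inv₀, hfix σ hσ]
  · field_simp

/-- A unit of `P` in the inertia ring is a unit of the inertia ring. -/
theorem isUnit_inertiaRing_of_not_mem_nonunits (x : inertiaRing P)
    (hx : (x : Kb) ∉ P.nonunits) : IsUnit x := by
  have h1 : (x : Kb)⁻¹ ∈ inertiaRing P :=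
    ⟨base_inv_mem_of_not_mem_nonunits x.2.1 hx, fun σ hσ => by rw [map_inv₀, x.2.2 σ hσ]⟩
  have hx0 : (x : Kb) ≠ 0 := by
    intro h0
    apply hx
    rw [h0]
    exact (P.mem_nonunits_iff).2 (by rw [map_zero]; exact zero_lt_one)
  exact IsUnit.of_mul_eq_one ⟨_, h1⟩ (Subtype.ext (mul_inv_cancel₀ hx0))

/-- A unit of the inertia ring is a unit of `P`. -/
theorem not_mem_nonunits_of_isUnit (x : inertiaRing P) (hx : IsUnit x) :
    (x : Kb) ∉ P.nonunits := by
  obtain ⟨y, hy⟩ := hx.exists_right_inv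
  have hxy : (x : Kb) * (y : Kb) = 1 := congrArg Subtype.val hy
  intro h
  have h1 : P.valuation (x : Kb) < 1 := (P.mem_nonunits_iff).1 h
  have h2 : P.valuation (y : Kb) ≤ 1 := (P.valuation_le_one_iff _).2 y.2.1
  have h3 : P.valuation ((x : Kb) * (y : Kb)) < 1 := by
    rw [map_mul]
    calc P.valuation (x : Kb) * P.valuation (y : Kb) ≤ P.valuation (x : Kb) * 1 :=
          mul_le_mul_right h2 _
      _ = P.valuation (x : Kb) := mul_one _
      _ < 1 := h1
  rw [hxy, map_one] at h3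
  exact lt_irrefl _ h3

/-- `p` as an element of the inertia ring. -/
noncomputable def pElt (p : ℕ) (P : ValuationSubring Kb) : inertiaRing P :=
  ⟨(p : Kb), base_natCast_mem_inertiaRing P p⟩

@[simp] theorem coe_pElt (p : ℕ) (P : ValuationSubring Kb) : ((pElt p P : inertiaRing P) : Kb) =
    (p : Kb) := rfl

theorem pElt_eq_natCast (p : ℕ) (P : ValuationSubring Kb) :
    pElt p P = ((p : ℕ) : inertiaRing P) :=
  Subtype.ext (by simp)

/-- `p` is not a unit of the inertia ring. -/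
theorem not_isUnit_pElt (hP : P.LiesOverPrime p) : ¬ IsUnit (pElt p P) :=
  fun h => not_mem_nonunits_of_isUnit _ h hP

/-- Every nonzero element of the inertia ring is `p ^ n` times a unit. -/
theorem exists_pow_mul_unit_inertiaRing (hp : p ≠ 0) (hP : P.LiesOverPrime p)
    (hunr : UnrProp p P) (hdvd : DvdProp p P) {x : inertiaRing P} (hx0 : x ≠ 0) :
    ∃ (n : ℕ) (u : (inertiaRing P)ˣ), x = pElt p P ^ n * u := by
  have hx0' : (x : Kb) ≠ 0 := fun h => hx0 (Subtype.ext h)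
  obtain ⟨n, u, hu, hu', hxu⟩ := exists_eq_pow_mul_unit hp hP hunr hdvd x.2 hx0'
  have hu0 : u ≠ 0 := by
    rintro rfl
    rw [mul_zero] at hxu
    exact hx0' hxu
  refine ⟨n, ⟨⟨u, hu⟩, ⟨u⁻¹, hu'⟩, Subtype.ext (mul_inv_cancel₀ hu0),
    Subtype.ext (inv_mul_cancel₀ hu0)⟩, Subtype.ext ?_⟩
  simpa using hxu

/-- `p` is irreducible in the inertia ring. -/
theorem irreducible_pElt (hp : p ≠ 0) (hP : P.LiesOverPrime p) (hunr : UnrProp p P)
    (hdvd : DvdProp p P) : Irreducible (pElt p P) := by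
  have hp0 : (p : Kb) ≠ 0 := Nat.cast_ne_zero.2 hp
  have hϖ0 : pElt p P ≠ 0 := fun h => hp0 (congrArg Subtype.val h)
  rw [irreducible_iff]
  refine ⟨not_isUnit_pElt hP, fun a b hab => ?_⟩
  have ha0 : a ≠ 0 := by
    rintro rfl
    rw [zero_mul] at hab
    exact hϖ0 hab
  have hb0 : b ≠ 0 := by
    rintro rfl
    rw [mul_zero] at hab
    exact hϖ0 hab
  obtain ⟨i, u, rfl⟩ := exists_pow_mul_unit_inertiaRing hp hP hunr hdvd ha0
  obtain ⟨j, w, rfl⟩ := exists_pow_mul_unit_inertiaRing hp hP hunr hdvd hb0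
  rcases Nat.eq_zero_or_pos i with hi | hi
  · left
    rw [hi, pow_zero, one_mul]
    exact u.isUnit
  rcases Nat.eq_zero_or_pos j with hj | hj
  · right
    rw [hj, pow_zero, one_mul]
    exact w.isUnit
  exfalso
  obtain ⟨i', rfl⟩ : ∃ i', i = i' + 1 := ⟨i - 1, by omega⟩
  obtain ⟨j', rfl⟩ : ∃ j', j = j' + 1 := ⟨j - 1, by omega⟩
  apply not_isUnit_pElt hP
  refine IsUnit.of_mul_eq_one (pElt p P ^ (i' + j') * (u * w : (inertiaRing P)ˣ)) ?_
  have h1 : pElt p P * (pElt p P * (pElt p P ^ (i' + j') * ((u : inertiaRing P) * w))) =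
      pElt p P * 1 := by
    rw [mul_one]
    conv_rhs => rw [hab]
    ring
  have h2 := mul_left_cancel₀ hϖ0 h1
  simpa using h2

/-- **BASE**: the inertia ring has the unit-times-power-of-`p` factorisation. -/
theorem inertiaRing_hasUnitMulPow (hp : p ≠ 0) (hP : P.LiesOverPrime p) (hunr : UnrProp p P)
    (hdvd : DvdProp p P) :
    IsDiscreteValuationRing.HasUnitMulPowIrreducibleFactorization (inertiaRing P) := by
  refine ⟨pElt p P, irreducible_pElt hp hP hunr hdvd, fun {x} hx => ?_⟩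
  obtain ⟨n, u, rfl⟩ := exists_pow_mul_unit_inertiaRing hp hP hunr hdvd hx
  exact ⟨n, u, rfl⟩

/-- **BASE**: the inertia ring is a discrete valuation ring. -/
theorem inertiaRing_isDiscreteValuationRing (hp : p ≠ 0) (hP : P.LiesOverPrime p)
    (hunr : UnrProp p P) (hdvd : DvdProp p P) : IsDiscreteValuationRing (inertiaRing P) :=
  IsDiscreteValuationRing.ofHasUnitMulPowIrreducibleFactorization
    (inertiaRing_hasUnitMulPow hp hP hunr hdvd)

/-- **BASE**: the inertia ring is a principal ideal ring. -/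
theorem inertiaRing_isPrincipalIdealRing (hp : p ≠ 0) (hP : P.LiesOverPrime p)
    (hunr : UnrProp p P) (hdvd : DvdProp p P) : IsPrincipalIdealRing (inertiaRing P) :=
  haveI := inertiaRing_isDiscreteValuationRing hp hP hunr hdvd
  inferInstance

/-- **BASE**: the maximal ideal of the inertia ring is generated by `p`. -/
theorem inertiaRing_maximalIdeal_eq (hp : p ≠ 0) (hP : P.LiesOverPrime p)
    (hunr : UnrProp p P) (hdvd : DvdProp p P) :
    haveI := inertiaRing_isDiscreteValuationRing hp hP hunr hdvd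
    IsLocalRing.maximalIdeal (inertiaRing P) = Ideal.span {pElt p P} :=
  haveI := inertiaRing_isDiscreteValuationRing hp hP hunr hdvd
  (IsDiscreteValuationRing.irreducible_iff_uniformizer _).1 (irreducible_pElt hp hP hunr hdvd)

/-- **BASE** (fractions): every inertia-fixed element of `ℚ̄` becomes an element of the inertia
ring after multiplication by a power of `p`. -/
theorem exists_pow_mul_mem_inertiaRing (hp : p ≠ 0) (hP : P.LiesOverPrime p)
    (hunr : UnrProp p P) (hdvd : DvdProp p P) {a : Kb}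
    (ha : ∀ σ ∈ P.inertiaSubgroupIn ℚ, σ a = a) : ∃ n : ℕ, (p : Kb) ^ n * a ∈ inertiaRing P := by
  have hp0 : (p : Kb) ≠ 0 := Nat.cast_ne_zero.2 hp
  rcases P.mem_or_inv_mem a with h | h
  · exact ⟨0, by rw [pow_zero, one_mul]; exact ⟨h, ha⟩⟩
  · by_cases ha0 : a = 0
    · exact ⟨0, by rw [ha0, mul_zero]; exact (inertiaRing P).zero_mem⟩
    have hinv : a⁻¹ ∈ inertiaRing P := ⟨h, fun σ hσ => by rw [map_inv₀, ha σ hσ]⟩
    obtain ⟨n, u, hu, hu', hxu⟩ :=
      exists_eq_pow_mul_unit hp hP hunr hdvd hinv (inv_ne_zero ha0)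
    refine ⟨n, ?_⟩
    have hu0 : u ≠ 0 := by
      rintro rfl
      rw [mul_zero] at hxu
      exact inv_ne_zero ha0 hxu
    have : (p : Kb) ^ n * a = u⁻¹ := by
      have h1 : a = ((p : Kb) ^ n * u)⁻¹ := by rw [← hxu, inv_inv]
      rw [h1, mul_inv]
      field_simp
    rw [this]
    exact hu'

/-- **BASE**: an element of the inertia ring which is a nonunit of `P` is divisible by `p` in
the inertia ring. -/
theorem exists_eq_p_mul_of_mem_nonunits (hp : p ≠ 0) (hunr : UnrProp p P) {x : Kb}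
    (hx : x ∈ inertiaRing P) (hxn : x ∈ P.nonunits) : ∃ y ∈ inertiaRing P, x = (p : Kb) * y := by
  have hp0 : (p : Kb) ≠ 0 := Nat.cast_ne_zero.2 hp
  refine ⟨x / (p : Kb), ⟨hunr x hxn hx.2, fun σ hσ =>
    fixed_div (hx.2 σ hσ) (by rw [map_natCast])⟩, ?_⟩
  field_simp

end Fermat.Agent.FFL
end MergeWrap_Lib_FFL_Base
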